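import Fermat.Agent.Gateway.Count.Perm
import Fermat.Agent.S21.ParabolicDim

/-!
# P-GATEWAY, WP-COUNT, part 2: the upper bound for `|Hom_P(Γ, A)|`

`Γ ≤ G` of finite index, `G` generated by `s, t`, `u = s * t`, `A` a finite abelian group, `P` a set
of elements of `Γ` containing all `sec(x)⁻¹ g^k sec(x)` (`g ∈ {s, u, t}`, `g^k x = x`). Then the
homomorphisms `Γ → A` vanishing on `P` satisfy
`|Hom_P(Γ, A)| * |A| ^ (o_s + o_u + o_t) ≤ |A| ^ ([G : Γ] + 2)`, `o_g` = number of `⟨g⟩`-orbits on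
`G ⧸ Γ`.
-/

set_option autoImplicit false
set_option linter.unusedSectionVars false

noncomputable section

namespace Fermat.Agent.Gateway.Count

open Finset Fermat.Agent.S21.ParabolicDim

theorem card_ker_mul_card_range {M₁ M₂ : Type*} [AddCommGroup M₁] [AddCommGroup M₂]
    (f : M₁ →+ M₂) : Nat.card f.ker * Nat.card f.range = Nat.card M₁ := by
  rw [← AddSubgroup.index_ker, AddSubgroup.card_mul_index]

section Abstract

variable {G : Type*} [Group G] (Γ : Subgroup G) {A : Type*} [AddCommGroup A]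

/-- Homomorphisms `Γ → A` vanishing on a set `P`. -/
def homP (P : Set Γ) : AddSubgroup (Additive Γ →+ A) where
  carrier := {φ | ∀ γ ∈ P, φ (Additive.ofMul γ) = 0}
  zero_mem' := fun _ _ => rfl
  add_mem' := by
    intro φ ψ hφ hψ γ hγ
    show φ (Additive.ofMul γ) + ψ (Additive.ofMul γ) = 0
    rw [hφ γ hγ, hψ γ hγ, add_zero]
  neg_mem' := by
    intro φ hφ γ hγ
    show -φ (Additive.ofMul γ) = 0
    rw [hφ γ hγ, neg_zero]

theorem mem_homP {P : Set Γ} {φ : Additive Γ →+ A} :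
    φ ∈ homP (A := A) Γ P ↔ ∀ γ ∈ P, φ (Additive.ofMul γ) = 0 := Iff.rfl

/-- `psi` as an additive map in `φ`. -/
def psiHom (g : G) : (Additive Γ →+ A) →+ ((G ⧸ Γ) → A) where
  toFun φ := psi Γ φ g
  map_zero' := by funext x; simp [psi]
  map_add' φ φ' := by funext x; simp [psi]

@[simp] theorem psiHom_apply (g : G) (φ : Additive Γ →+ A) : psiHom (A := A) Γ g φ = psi Γ φ g := rfl

/-- Telescoping of the cocycle along powers. -/
theorem sum_range_psi (φ : Additive Γ →+ A) (g : G) (x : G ⧸ Γ) (k : ℕ) :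
    ∑ i ∈ range k, psi Γ φ g (g ^ i • x) = psi Γ φ (g ^ k) x := by
  induction k with
  | zero => simp [psi_one]
  | succ k ih => rw [sum_range_succ, ih, pow_succ', psi_mul, add_comm]

/-- `dOp` is a cocycle. -/
theorem dOp_mul (g h : G) (m : (G ⧸ Γ) → A) (x : G ⧸ Γ) :
    dOp (g * h) m x = dOp g m (h • x) + dOp h m x := by
  simp only [dOp_apply, mul_smul]; abel

/-- A cocycle vanishing on generators vanishes. -/
theorem cocycle_eq_zero {s t : G} (hgen : Subgroup.closure {s, t} = ⊤)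
    (c : G → (G ⧸ Γ) → A) (hc : ∀ g h x, c (g * h) x = c g (h • x) + c h x)
    (hs : c s = 0) (ht : c t = 0) (g : G) : c g = 0 := by
  have h1 : c 1 = 0 := by
    funext x
    have := hc 1 1 x
    rw [one_mul, one_smul] at this
    simpa using this
  have hg : g ∈ Subgroup.closure {s, t} := hgen ▸ Subgroup.mem_top g
  induction hg using Subgroup.closure_induction with
  | mem g hg =>
    rcases hg with rfl | rfl
    · exact hs
    · exact ht
  | one => exact h1
  | mul g h _ _ ihg ihh =>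
    funext x
    rw [hc, ihg, ihh]; simp
  | inv g _ ih =>
    funext x
    have := hc g⁻¹ g (g⁻¹ • x)
    rw [inv_mul_cancel, h1, smul_inv_smul, ih] at this
    simpa using this.symm

end Abstract

section Main

variable {G : Type*} [Group G] (Γ : Subgroup G) {A : Type*} [AddCommGroup A]

/-- Precomposition with the action of `t`. -/
def tOp (t : G) : ((G ⧸ Γ) → A) →+ ((G ⧸ Γ) → A) where
  toFun a x := a (t • x)
  map_zero' := rfl
  map_add' _ _ := rfl

@[simp] theorem tOp_apply (t : G) (a : (G ⧸ Γ) → A) (x : G ⧸ Γ) : tOp Γ t a x = a (t • x) := rfl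

/-- `(n_s, n_u, n_t) ↦ dOp u n_u - (dOp s n_s) ∘ t - dOp t n_t`, `u = s * t`. -/
def lamHom (s t : G) :
    (((G ⧸ Γ) → A) × ((G ⧸ Γ) → A) × ((G ⧸ Γ) → A)) →+ ((G ⧸ Γ) → A) :=
  ((dOp (s * t)).comp ((AddMonoidHom.fst _ _).comp (AddMonoidHom.snd _ _)))
    - ((tOp Γ t).comp ((dOp s).comp (AddMonoidHom.fst _ _)))
    - ((dOp t).comp ((AddMonoidHom.snd _ _).comp (AddMonoidHom.snd _ _)))

theorem lamHom_apply (s t : G) (w : ((G ⧸ Γ) → A) × ((G ⧸ Γ) → A) × ((G ⧸ Γ) → A)) :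
    lamHom Γ s t w = dOp (s * t) w.2.1 - tOp Γ t (dOp s w.1) - dOp t w.2.2 := rfl

/-- `w ↦ (dOp s n_s, dOp u n_u, lamHom w)`. -/
def thetaHom (s t : G) :
    (((G ⧸ Γ) → A) × ((G ⧸ Γ) → A) × ((G ⧸ Γ) → A)) →+
      (((G ⧸ Γ) → A) × ((G ⧸ Γ) → A) × ((G ⧸ Γ) → A)) :=
  ((dOp s).comp (AddMonoidHom.fst _ _)).prod
    (((dOp (s * t)).comp ((AddMonoidHom.fst _ _).comp (AddMonoidHom.snd _ _))).prod (lamHom Γ s t))

theorem thetaHom_apply (s t : G) (w : ((G ⧸ Γ) → A) × ((G ⧸ Γ) → A) × ((G ⧸ Γ) → A)) :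
    thetaHom Γ s t w = (dOp s w.1, dOp (s * t) w.2.1, lamHom Γ s t w) := rfl

/-- `(φ, m) ↦ (ψ_s φ + dOp s m, ψ_u φ + dOp u m)`. -/
def xiHom (s t : G) (P : Set Γ) :
    (homP (A := A) Γ P × ((G ⧸ Γ) → A)) →+ (((G ⧸ Γ) → A) × ((G ⧸ Γ) → A)) :=
  ((((psiHom Γ s).comp (homP (A := A) Γ P).subtype).comp (AddMonoidHom.fst _ _))
      + ((dOp (X := G ⧸ Γ) (A := A) s).comp (AddMonoidHom.snd _ _))).prod
    ((((psiHom Γ (s * t)).comp (homP (A := A) Γ P).subtype).comp (AddMonoidHom.fst _ _))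
      + ((dOp (X := G ⧸ Γ) (A := A) (s * t)).comp (AddMonoidHom.snd _ _)))

theorem xiHom_apply (s t : G) (P : Set Γ) (p : homP (A := A) Γ P × ((G ⧸ Γ) → A)) :
    xiHom Γ s t P p =
      (psi Γ (p.1 : Additive Γ →+ A) s + dOp s p.2,
        psi Γ (p.1 : Additive Γ →+ A) (s * t) + dOp (s * t) p.2) := rfl

variable {Γ}

/-- Elements of the kernel of `xiHom` are `(0, constant)`. -/
theorem eq_zero_of_mem_ker_xiHom {s t : G} (hgen : Subgroup.closure {s, t} = ⊤) {P : Set Γ}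
    {p : homP (A := A) Γ P × ((G ⧸ Γ) → A)} (hp : p ∈ (xiHom Γ s t P).ker)
    (h0 : p.2 ((1 : G) : G ⧸ Γ) = 0) : p = 0 := by
  obtain ⟨⟨φ, hφ⟩, m⟩ := p
  rw [AddMonoidHom.mem_ker, xiHom_apply, Prod.mk_eq_zero] at hp
  obtain ⟨hs, hu⟩ := hp
  simp only at hs hu h0
  -- the cocycle `c g = ψ_g + dOp g m`
  set c : G → (G ⧸ Γ) → A := fun g => psi Γ φ g + dOp g m with hc
  have hcoc : ∀ g h x, c (g * h) x = c g (h • x) + c h x := by
    intro g h x
    simp only [hc, Pi.add_apply, psi_mul, dOp_mul]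
    abel
  have hct : c t = 0 := by
    funext x
    have := hcoc s t x
    have hs' : c s = 0 := hs
    have hu' : c (s * t) = 0 := hu
    rw [hu', hs'] at this
    simpa using this.symm
  have hall : ∀ g : G, c g = 0 := cocycle_eq_zero Γ hgen c hcoc hs hct
  have hφ0 : φ = 0 := by
    refine AddMonoidHom.ext fun γ => ?_
    have h1 := congrFun (hall ((Additive.toMul γ : Γ) : G)) ((1 : G) : G ⧸ Γ)
    simp only [hc, Pi.add_apply, dOp_apply, smul_one_coset, sub_self, add_zero, Pi.zero_apply,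
      psi_mem] at h1
    simpa using h1
  have hm : ∀ g : G, dOp g m = 0 := by
    intro g
    have := hall g
    simp only [hc, hφ0] at this
    have hz : psi Γ (0 : Additive Γ →+ A) g = 0 := by funext x; simp [psi]
    rwa [hz, zero_add] at this
  have hm0 : m = 0 := by
    funext x
    rw [Pi.zero_apply, ← h0]
    exact eq_const_of_dOp_eq_zero hgen (hm s) (hm t) x _
  subst hφ0
  subst hm0
  rfl

variable [Finite (G ⧸ Γ)] [Finite A]

theorem card_ker_xiHom_le {s t : G} (hgen : Subgroup.closure {s, t} = ⊤) (P : Set Γ) :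
    Nat.card (xiHom (A := A) Γ s t P).ker ≤ Nat.card A := by
  refine Nat.card_le_card_of_injective
    (fun p : (xiHom (A := A) Γ s t P).ker => (p : homP (A := A) Γ P × ((G ⧸ Γ) → A)).2
      ((1 : G) : G ⧸ Γ)) ?_
  intro p q hpq
  have h := eq_zero_of_mem_ker_xiHom hgen (sub_mem p.2 q.2)
    (by simp only [Prod.snd_sub, Pi.sub_apply]; exact sub_eq_zero.mpr hpq)
  exact Subtype.ext (sub_eq_zero.mp h)

/-- Number of orbits of `⟨g⟩` on `G ⧸ Γ`. -/
def orbNum (Γ : Subgroup G) (g : G) : ℕ :=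
  Nat.card (MulAction.orbitRel.Quotient (Subgroup.zpowers g) (G ⧸ Γ))

theorem card_ker_thetaHom (s t : G) :
    Nat.card (thetaHom (A := A) Γ s t).ker =
      Nat.card A ^ (orbNum Γ s + orbNum Γ (s * t) + orbNum Γ t) := by
  have e : (thetaHom (A := A) Γ s t).ker ≃
      ((dOp (A := A) (X := G ⧸ Γ) s).ker × (dOp (A := A) (X := G ⧸ Γ) (s * t)).ker ×
        (dOp (A := A) (X := G ⧸ Γ) t).ker) :=
    { toFun := fun w => by
        have hw := w.2
        rw [AddMonoidHom.mem_ker, thetaHom_apply, Prod.mk_eq_zero, Prod.mk_eq_zero] at hw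
        refine ⟨⟨w.1.1, hw.1⟩, ⟨w.1.2.1, hw.2.1⟩, ⟨w.1.2.2, ?_⟩⟩
        have h3 := hw.2.2
        rw [lamHom_apply, hw.1, hw.2.1, map_zero, sub_zero, zero_sub, neg_eq_zero] at h3
        exact h3
      invFun := fun v => ⟨(v.1.1, v.2.1.1, v.2.2.1), by
        rw [AddMonoidHom.mem_ker, thetaHom_apply, lamHom_apply]
        have h1 : dOp s (v.1 : (G ⧸ Γ) → A) = 0 := v.1.2
        have h2 : dOp (s * t) (v.2.1 : (G ⧸ Γ) → A) = 0 := v.2.1.2
        have h3 : dOp t (v.2.2 : (G ⧸ Γ) → A) = 0 := v.2.2.2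
        simp only [h1, h2, h3, map_zero, sub_zero]
        rfl⟩
      left_inv := fun w => rfl
      right_inv := fun v => rfl }
  rw [Nat.card_congr e, Nat.card_prod, Nat.card_prod, card_ker_dOp, card_ker_dOp, card_ker_dOp,
    pow_add, pow_add, mul_assoc]
  rfl

/-- The sum of the values of a function on `G ⧸ Γ`. -/
def sumHom (Γ : Subgroup G) [Fintype (G ⧸ Γ)] : ((G ⧸ Γ) → A) →+ A where
  toFun f := ∑ x, f x
  map_zero' := by simp
  map_add' f g := by simp [Finset.sum_add_distrib]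

theorem closure_mul_right {s t : G} (hgen : Subgroup.closure {s, t} = ⊤) :
    Subgroup.closure {s * t, t} = ⊤ := by
  rw [eq_top_iff, ← hgen, Subgroup.closure_le]
  rintro g (rfl | rfl)
  · have h1 : g * t ∈ Subgroup.closure {g * t, t} := Subgroup.subset_closure (by simp)
    have h2 : t ∈ Subgroup.closure {g * t, t} := Subgroup.subset_closure (by simp)
    have := mul_mem h1 (inv_mem h2)
    simpa using this
  · exact Subgroup.subset_closure (by simp)

theorem exists_thetaHom_eq {s t : G} {P : Set Γ}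
    (hP : ∀ g ∈ ({s, s * t, t} : Set G), ∀ (x : G ⧸ Γ) (k : ℕ), g ^ k • x = x →
      coc Γ (g ^ k) x ∈ P)
    (p : homP (A := A) Γ P × ((G ⧸ Γ) → A)) :
    ∃ w, thetaHom Γ s t w = ((xiHom Γ s t P p).1, (xiHom Γ s t P p).2, 0) := by
  obtain ⟨⟨φ, hφ⟩, m⟩ := p
  have hprim : ∀ g ∈ ({s, s * t, t} : Set G), ∃ n : (G ⧸ Γ) → A, dOp g n = psi Γ φ g := by
    intro g hg
    refine exists_primitive g _ fun x k hk => ?_
    rw [sum_range_psi]
    exact hφ _ (hP g hg x k hk)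
  obtain ⟨ns, hns⟩ := hprim s (by simp)
  obtain ⟨nu, hnu⟩ := hprim (s * t) (by simp)
  obtain ⟨nt, hnt⟩ := hprim t (by simp)
  refine ⟨(ns + m, nu + m, nt + m), ?_⟩
  rw [thetaHom_apply, xiHom_apply]
  simp only [map_add, hns, hnu]
  refine Prod.ext rfl (Prod.ext rfl ?_)
  show lamHom Γ s t (ns + m, nu + m, nt + m) = 0
  rw [lamHom_apply]
  simp only [map_add, hns, hnu, hnt]
  funext x
  simp only [Pi.sub_apply, Pi.add_apply, tOp_apply, psi_mul, dOp_mul, Pi.zero_apply]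
  abel

/-- **Upper bound.** -/
theorem card_homP_mul_le {s t : G} (hgen : Subgroup.closure {s, t} = ⊤) {P : Set Γ}
    (hP : ∀ g ∈ ({s, s * t, t} : Set G), ∀ (x : G ⧸ Γ) (k : ℕ), g ^ k • x = x →
      coc Γ (g ^ k) x ∈ P) :
    Nat.card (homP (A := A) Γ P) *
        Nat.card A ^ (orbNum Γ s + orbNum Γ (s * t) + orbNum Γ t) ≤
      Nat.card A ^ (Nat.card (G ⧸ Γ) + 2) := by
  classical
  have : Fintype (G ⧸ Γ) := Fintype.ofFinite _
  have : Nonempty (G ⧸ Γ) := ⟨((1 : G) : G ⧸ Γ)⟩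
  have hApos : 0 < Nat.card A := Nat.card_pos
  set Mc := Nat.card ((G ⧸ Γ) → A) with hMc
  have hMcpos : 0 < Mc := Nat.card_pos
  have hMcA : Mc = Nat.card A ^ Nat.card (G ⧸ Γ) := Nat.card_fun
  -- finiteness of `homP` (it embeds in functions via `xiHom`... we use the kernel/range count)
  set Ξ := xiHom (A := A) Γ s t P with hΞ
  set Θ := thetaHom (A := A) Γ s t with hΘ
  -- the third projection on `range Θ`
  let pr3 : Θ.range →+ ((G ⧸ Γ) → A) :=
    ((AddMonoidHom.snd _ _).comp (AddMonoidHom.snd _ _)).comp Θ.range.subtype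
  -- h2 : |range Ξ| ≤ |ker pr3|
  have h2 : Nat.card Ξ.range ≤ Nat.card pr3.ker := by
    refine Nat.card_le_card_of_injective
      (fun r : Ξ.range => (⟨⟨((r : _ × _).1, (r : _ × _).2, 0), by
        obtain ⟨p, hp⟩ := r.2
        obtain ⟨w, hw⟩ := exists_thetaHom_eq (s := s) (t := t) hP p
        exact ⟨w, by rw [hw, hp]⟩⟩, rfl⟩ : pr3.ker)) ?_
    intro r r' h
    have h' := congrArg (fun z : pr3.ker =>
      (((z : Θ.range) : ((G ⧸ Γ) → A) × ((G ⧸ Γ) → A) × ((G ⧸ Γ) → A)))) h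
    simp only [Prod.mk.injEq] at h'
    exact Subtype.ext (Prod.ext h'.1 h'.2.1)
  -- h3 : |ker pr3| * |range pr3| = |range Θ|
  have h3 := card_ker_mul_card_range pr3
  -- h4 : Mc ≤ |range pr3| * |A|
  have h4 : Mc ≤ Nat.card pr3.range * Nat.card A := by
    have hle : (sumHom (A := A) Γ).ker ≤ pr3.range := by
      intro f hf
      obtain ⟨q, k, hqk⟩ := exists_dOp_add_dOp (closure_mul_right hgen) f hf
      refine ⟨⟨Θ (0, q, -k), ⟨_, rfl⟩⟩, ?_⟩
      show lamHom Γ s t (0, q, -k) = f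
      rw [lamHom_apply, hqk]
      simp
    have h5 := card_ker_mul_card_range (sumHom (A := A) Γ)
    have h6 : Nat.card (sumHom (A := A) Γ).range ≤ Nat.card A :=
      Nat.card_le_card_of_injective _ Subtype.val_injective
    have h7 : Nat.card (sumHom (A := A) Γ).ker ≤ Nat.card pr3.range :=
      Nat.card_le_card_of_injective (AddSubgroup.inclusion hle)
        (AddSubgroup.inclusion_injective hle)
    calc Mc = Nat.card (sumHom (A := A) Γ).ker * Nat.card (sumHom (A := A) Γ).range := h5.symm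
      _ ≤ Nat.card pr3.range * Nat.card A := Nat.mul_le_mul h7 h6
  -- h5 : |ker Θ| * |range Θ| = Mc ^ 3
  have h5 : Nat.card Θ.ker * Nat.card Θ.range = Mc * (Mc * Mc) := by
    rw [card_ker_mul_card_range, Nat.card_prod, Nat.card_prod]
  -- h1 : |ker Ξ| * |range Ξ| = |homP| * Mc
  have h1 : Nat.card Ξ.ker * Nat.card Ξ.range = Nat.card (homP (A := A) Γ P) * Mc := by
    rw [card_ker_mul_card_range, Nat.card_prod]
  have h0 := card_ker_xiHom_le (A := A) hgen P
  have hker := card_ker_thetaHom (A := A) (Γ := Γ) s t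
  rw [← hker]
  -- combine
  set H := Nat.card (homP (A := A) Γ P)
  set a := Nat.card A
  set kΞ := Nat.card Ξ.ker
  set rΞ := Nat.card Ξ.range
  set k3 := Nat.card pr3.ker
  set r3 := Nat.card pr3.range
  set kΘ := Nat.card Θ.ker
  set rΘ := Nat.card Θ.range
  have step1 : H * Mc ≤ a * k3 := by
    rw [← h1]
    exact Nat.mul_le_mul h0 h2
  have key : (Mc * Mc) * (H * kΘ) ≤ (Mc * Mc) * (a ^ 2 * Mc) := by
    calc (Mc * Mc) * (H * kΘ) = (H * Mc) * Mc * kΘ := by ring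
      _ ≤ (a * k3) * (r3 * a) * kΘ := by
        exact Nat.mul_le_mul (Nat.mul_le_mul step1 h4) le_rfl
      _ = a ^ 2 * (k3 * r3) * kΘ := by ring
      _ = a ^ 2 * rΘ * kΘ := by rw [h3]
      _ = a ^ 2 * (kΘ * rΘ) := by ring
      _ = a ^ 2 * (Mc * (Mc * Mc)) := by rw [h5]
      _ = (Mc * Mc) * (a ^ 2 * Mc) := by ring
  have := Nat.le_of_mul_le_mul_left key (Nat.mul_pos hMcpos hMcpos)
  calc H * kΘ ≤ a ^ 2 * Mc := this
    _ = a ^ (Nat.card (G ⧸ Γ) + 2) := by rw [hMcA]; ring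

end Main

end Fermat.Agent.Gateway.Count
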