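import Fermat.Agent.Gateway.Count.Bound
import Fermat.Agent.S24.PartV.Main

/-!
# P-GATEWAY, WP-COUNT, part 3: `|Hom_pe(Γ₀(N), A)| ≤ |A| ^ (2g)`

`homPE Γ A` = homomorphisms `Γ → A` killing every element of trace in `[-2, 2]` (i.e. `±1`, the
elliptic and the parabolic elements).
-/

set_option autoImplicit false
set_option linter.unusedSectionVars false

noncomputable section

namespace Fermat.Agent.Gateway.Count

open Finset Fermat.Agent.S21.ParabolicDim ModularGroup CongruenceSubgroup Matrix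
open scoped MatrixGroups

/-- Elements of trace in `[-2, 2]`. -/
def smallTrace (Γ : Subgroup SL(2, ℤ)) : Set Γ :=
  {γ | |((γ : SL(2, ℤ)) : Matrix (Fin 2) (Fin 2) ℤ).trace| ≤ 2}

/-- Homomorphisms `Γ → A` killing `±1`, the elliptic and the parabolic elements. -/
def homPE (Γ : Subgroup SL(2, ℤ)) (A : Type*) [AddCommGroup A] : AddSubgroup (Additive Γ →+ A) :=
  homP Γ (smallTrace Γ)

theorem mem_homPE {Γ : Subgroup SL(2, ℤ)} {A : Type*} [AddCommGroup A] {φ : Additive Γ →+ A} :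
    φ ∈ homPE Γ A ↔ ∀ γ : Γ, |((γ : SL(2, ℤ)) : Matrix (Fin 2) (Fin 2) ℤ).trace| ≤ 2 →
      φ (Additive.ofMul γ) = 0 := Iff.rfl

theorem trace_conj (g h : SL(2, ℤ)) :
    ((h⁻¹ * g * h : SL(2, ℤ)) : Matrix (Fin 2) (Fin 2) ℤ).trace =
      (g : Matrix (Fin 2) (Fin 2) ℤ).trace := by
  rw [Matrix.SpecialLinearGroup.coe_mul, Matrix.SpecialLinearGroup.coe_mul, Matrix.trace_mul_comm,
    ← Matrix.mul_assoc, ← Matrix.SpecialLinearGroup.coe_mul, mul_inv_cancel,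
    Matrix.SpecialLinearGroup.coe_one, Matrix.one_mul]

theorem abs_trace_S_pow (k : ℕ) :
    |((S : SL(2, ℤ)) ^ k : SL(2, ℤ)).1.trace| ≤ 2 := by
  have h4 : (S : SL(2, ℤ)) ^ 4 = 1 := by decide
  rw [pow_eq_pow_mod k h4]
  have hk : k % 4 < 4 := Nat.mod_lt _ (by norm_num)
  interval_cases (k % 4) <;> decide

theorem abs_trace_ST_pow (k : ℕ) :
    |((S * T : SL(2, ℤ)) ^ k : SL(2, ℤ)).1.trace| ≤ 2 := by
  have h6 : (S * T : SL(2, ℤ)) ^ 6 = 1 := by decide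
  rw [pow_eq_pow_mod k h6]
  have hk : k % 6 < 6 := Nat.mod_lt _ (by norm_num)
  interval_cases (k % 6) <;> decide

theorem abs_trace_T_pow (k : ℕ) :
    |((T : SL(2, ℤ)) ^ k : SL(2, ℤ)).1.trace| ≤ 2 := by
  have := coe_T_zpow (k : ℤ)
  rw [zpow_natCast] at this
  rw [this]
  simp [Matrix.trace_fin_two]

theorem coc_mem_smallTrace (Γ : Subgroup SL(2, ℤ)) :
    ∀ g ∈ ({S, S * T, T} : Set SL(2, ℤ)), ∀ (x : SL(2, ℤ) ⧸ Γ) (k : ℕ), g ^ k • x = x →
      coc Γ (g ^ k) x ∈ smallTrace Γ := by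
  intro g hg x k hk
  show |((coc Γ (g ^ k) x : Γ) : SL(2, ℤ)).1.trace| ≤ 2
  have h1 : ((coc Γ (g ^ k) x : Γ) : SL(2, ℤ)) = (sec Γ x)⁻¹ * g ^ k * sec Γ x := by
    show (sec Γ (g ^ k • x))⁻¹ * g ^ k * sec Γ x = _
    rw [hk]
  rw [h1, trace_conj]
  rcases hg with rfl | rfl | rfl
  · exact abs_trace_S_pow k
  · exact abs_trace_ST_pow k
  · exact abs_trace_T_pow k

variable (N : ℕ) [NeZero N]

/-- **Upper bound** `|Hom_pe(Γ₀(N), A)| ≤ |A| ^ (2g)` for every finite abelian group `A`, where `g`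
is the combinatorial genus of `PartV.exists_genus`. -/
theorem card_homPE_Gamma0_le {A : Type*} [AddCommGroup A] [Finite A] {g : ℕ}
    (hg : 2 * (g : ℤ) - 2 = -2 * (ModularCurve.dedekindPsi N : ℤ)
        + ((ModularCurve.dedekindPsi N : ℤ) -
            (Fermat.Agent.S24.PartV.orbCount (SL(2, ℤ) ⧸ Gamma0 N) T : ℤ))
        + ((ModularCurve.dedekindPsi N : ℤ) -
            (Fermat.Agent.S24.PartV.orbCount (SL(2, ℤ) ⧸ Gamma0 N) (S * T) : ℤ))
        + ((ModularCurve.dedekindPsi N : ℤ) -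
            (Fermat.Agent.S24.PartV.orbCount (SL(2, ℤ) ⧸ Gamma0 N) S : ℤ))) :
    Nat.card (homPE (Gamma0 N) A) ≤ Nat.card A ^ (2 * g) := by
  have hfin : Finite (SL(2, ℤ) ⧸ Gamma0 N) := Fermat.Agent.S24.PartV.finite_coset N
  have h := card_homP_mul_le (A := A) (Γ := Gamma0 N) SpecialLinearGroup.SL2Z_generators
    (coc_mem_smallTrace (Gamma0 N))
  have hcard : Nat.card (SL(2, ℤ) ⧸ Gamma0 N) = ModularCurve.dedekindPsi N :=
    Fermat.Agent.S24.PartV.card_coset N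
  set oS := orbNum (Gamma0 N) (S : SL(2, ℤ)) with hoS
  set oU := orbNum (Gamma0 N) (S * T : SL(2, ℤ)) with hoU
  set oT := orbNum (Gamma0 N) (T : SL(2, ℤ)) with hoT
  have e1 : (Fermat.Agent.S24.PartV.orbCount (SL(2, ℤ) ⧸ Gamma0 N) T : ℤ) = oT := rfl
  have e2 : (Fermat.Agent.S24.PartV.orbCount (SL(2, ℤ) ⧸ Gamma0 N) (S * T) : ℤ) = oU := rfl
  have e3 : (Fermat.Agent.S24.PartV.orbCount (SL(2, ℤ) ⧸ Gamma0 N) S : ℤ) = oS := rfl
  rw [e1, e2, e3] at hg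
  rw [hcard] at h
  have hexp : oS + oU + oT + 2 * g = ModularCurve.dedekindPsi N + 2 := by omega
  have hApos : 0 < Nat.card A := Nat.card_pos
  have h2 : Nat.card A ^ (oS + oU + oT) * Nat.card (homPE (Gamma0 N) A) ≤
      Nat.card A ^ (oS + oU + oT) * Nat.card A ^ (2 * g) := by
    rw [← pow_add, hexp, mul_comm]
    exact h
  exact Nat.le_of_mul_le_mul_left h2 (pow_pos hApos _)

end Fermat.Agent.Gateway.Count
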