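import Mathlib

/-!
# P-GATEWAY, WP-COUNT, part 1: difference operators on functions on a finite `G`-set

For a group `G` acting on a finite set `X`, an abelian group `A` and `g : G` we study
`dOp g : (X → A) →+ (X → A)`, `n ↦ n ∘ (g • ·) - n`:

* `exists_primitive`: a function all of whose "periodic sums" vanish is in the range of `dOp g`;
* `card_ker_dOp`: the kernel of `dOp g` has `|A| ^ (number of orbits of ⟨g⟩)` elements;
* `exists_dOp_add_dOp`: if `u, t` generate `G` and `G` acts transitively then every function with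
  total sum zero is `dOp u p + dOp t k`;
* `eq_const_of_dOp_eq_zero`: functions killed by `dOp s` and `dOp u` are constant.
-/

set_option autoImplicit false
set_option linter.unusedSectionVars false

noncomputable section

namespace Fermat.Agent.Gateway.Count

open Finset

variable {G : Type*} [Group G] {X : Type*} [MulAction G X] {A : Type*} [AddCommGroup A]

/-- The difference operator `n ↦ n ∘ (g • ·) - n`. -/
def dOp (g : G) : (X → A) →+ (X → A) where
  toFun n x := n (g • x) - n x
  map_zero' := by funext x; simp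
  map_add' n m := by funext x; simp only [Pi.add_apply]; abel

@[simp] theorem dOp_apply (g : G) (n : X → A) (x : X) : dOp g n x = n (g • x) - n x := rfl

/-- Telescoping of `dOp` along the `g`-orbit. -/
theorem sum_range_dOp (g : G) (n : X → A) (x : X) (k : ℕ) :
    ∑ i ∈ range k, dOp g n (g ^ i • x) = n (g ^ k • x) - n x := by
  induction k with
  | zero => simp
  | succ k ih =>
    rw [sum_range_succ, ih, dOp_apply, ← mul_smul, ← pow_succ']
    abel

section Finite

variable [Finite X]

/-- On a finite `G`-set every point is periodic for every `g`. -/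
theorem exists_pow_smul_eq (g : G) (x : X) : ∃ k : ℕ, 0 < k ∧ g ^ k • x = x := by
  obtain ⟨i, j, hij, h⟩ := Finite.exists_ne_map_eq_of_infinite (fun i : ℕ => g ^ i • x)
  wlog hlt : i < j generalizing i j
  · exact this j i hij.symm h.symm (lt_of_le_of_ne (not_lt.mp hlt) hij.symm)
  refine ⟨j - i, Nat.sub_pos_of_lt hlt, ?_⟩
  have hj : g ^ j = g ^ i * g ^ (j - i) := by rw [← pow_add, Nat.add_sub_cancel' hlt.le]
  simp only [hj, mul_smul] at h
  exact (smul_left_cancel _ h).symm

/-- Elements of the `⟨g⟩`-orbit of `x` are of the form `g ^ j • x` with `j` a natural number. -/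
theorem exists_nat_pow_smul_eq_of_mem_orbit (g : G) {x y : X}
    (h : y ∈ MulAction.orbit (Subgroup.zpowers g) x) : ∃ j : ℕ, g ^ j • x = y := by
  obtain ⟨⟨_, i, rfl⟩, rfl⟩ := h
  obtain ⟨k, hk, hkx⟩ := exists_pow_smul_eq g x
  -- `g ^ i • x = g ^ (i mod k) • x`
  have key : ∀ m : ℤ, g ^ (m * k) • x = x := by
    intro m
    induction m using Int.induction_on with
    | zero => simp
    | succ m ih =>
      rw [add_mul, one_mul, zpow_add, mul_smul, zpow_natCast, hkx, ih]
    | pred m ih =>
      have h1 : g ^ ((-(m : ℤ) - 1) * k) • x = g ^ ((-(m : ℤ) - 1) * k) • (g ^ k • x) := by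
        rw [hkx]
      rw [h1, ← zpow_natCast, ← mul_smul, ← zpow_add]
      have : (-(m : ℤ) - 1) * k + k = -(m : ℤ) * k := by ring
      rw [this, ih]
  refine ⟨(i % k).toNat, ?_⟩
  have hk0 : (k : ℤ) ≠ 0 := by exact_mod_cast hk.ne'
  have hnn : 0 ≤ i % k := Int.emod_nonneg i hk0
  show g ^ (i % k).toNat • x = (⟨g ^ i, _⟩ : Subgroup.zpowers g) • x
  rw [Subgroup.smul_def]
  show g ^ (i % k).toNat • x = g ^ i • x
  rw [← zpow_natCast, Int.toNat_of_nonneg hnn]
  conv_rhs => rw [← Int.emod_add_mul_ediv i k, mul_comm (k : ℤ), zpow_add, mul_smul, key]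

omit [Finite X] in
/-- If all periodic sums of `a` along `g` vanish, partial sums only depend on the endpoint. -/
theorem sum_range_eq_of_pow_smul_eq (g : G) (a : X → A)
    (h : ∀ (x : X) (k : ℕ), g ^ k • x = x → ∑ i ∈ range k, a (g ^ i • x) = 0)
    (r : X) {j j' : ℕ} (hjj : g ^ j • r = g ^ j' • r) :
    ∑ i ∈ range j, a (g ^ i • r) = ∑ i ∈ range j', a (g ^ i • r) := by
  wlog hle : j ≤ j' generalizing j j'
  · exact (this hjj.symm (le_of_not_ge hle)).symm
  obtain ⟨d, rfl⟩ := Nat.exists_eq_add_of_le hle
  rw [sum_range_add]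
  have h0 : ∑ i ∈ range d, a (g ^ (j + i) • r) = 0 := by
    have hfix : g ^ d • (g ^ j • r) = g ^ j • r := by
      rw [← mul_smul, ← pow_add, add_comm d j, ← hjj]
    have := h (g ^ j • r) d hfix
    simpa only [← mul_smul, ← pow_add, add_comm] using this
  rw [h0, add_zero]

/-- **Primitives.** A function all of whose periodic sums along `g` vanish lies in the range of
`dOp g`. -/
theorem exists_primitive (g : G) (a : X → A)
    (h : ∀ (x : X) (k : ℕ), g ^ k • x = x → ∑ i ∈ range k, a (g ^ i • x) = 0) :
    ∃ n : X → A, dOp g n = a := by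
  classical
  -- a representative of the orbit of `x`
  let r : X → X := fun x =>
    Quotient.out (Quotient.mk (MulAction.orbitRel (Subgroup.zpowers g) X) x)
  have hr : ∀ x, x ∈ MulAction.orbit (Subgroup.zpowers g) (r x) := by
    intro x
    have h1 : (MulAction.orbitRel (Subgroup.zpowers g) X) (r x) x :=
      Quotient.exact (Quotient.out_eq _)
    rw [MulAction.orbitRel_apply] at h1
    exact (MulAction.orbit_eq_iff.mpr h1 ▸ MulAction.mem_orbit_self x)
  have hrg : ∀ x, r (g • x) = r x := by
    intro x
    have : Quotient.mk (MulAction.orbitRel (Subgroup.zpowers g) X) (g • x) =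
        Quotient.mk (MulAction.orbitRel (Subgroup.zpowers g) X) x := by
      apply Quotient.sound
      show g • x ∈ MulAction.orbit (Subgroup.zpowers g) x
      exact ⟨⟨g, Subgroup.mem_zpowers g⟩, rfl⟩
    show Quotient.out _ = Quotient.out _
    rw [this]
  have hj : ∀ x, ∃ j : ℕ, g ^ j • r x = x := fun x =>
    exists_nat_pow_smul_eq_of_mem_orbit g (hr x)
  choose j hjx using hj
  refine ⟨fun x => ∑ i ∈ range (j x), a (g ^ i • r x), ?_⟩
  funext x
  rw [dOp_apply, hrg]
  have h1 : g ^ (j (g • x)) • r x = g ^ (j x + 1) • r x := by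
    have := hjx (g • x)
    rw [hrg] at this
    rw [this, pow_succ', mul_smul, hjx x]
  rw [sum_range_eq_of_pow_smul_eq g a h (r x) h1, sum_range_succ, hjx x]
  abel

end Finite

section Kernel

theorem dOp_eq_zero_iff (g : G) (n : X → A) : dOp g n = 0 ↔ ∀ x, n (g • x) = n x := by
  constructor
  · intro h x
    have := congrFun h x
    rwa [dOp_apply, Pi.zero_apply, sub_eq_zero] at this
  · intro h
    funext x
    rw [dOp_apply, h x, sub_self, Pi.zero_apply]

theorem mem_ker_dOp_iff (g : G) (n : X → A) : n ∈ (dOp (A := A) (X := X) g).ker ↔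
    ∀ x, n (g • x) = n x := by
  rw [AddMonoidHom.mem_ker, dOp_eq_zero_iff]

theorem apply_zpow_smul (g : G) {n : X → A} (hn : ∀ x, n (g • x) = n x) (i : ℤ) (x : X) :
    n (g ^ i • x) = n x := by
  induction i using Int.induction_on generalizing x with
  | zero => simp
  | succ i ih => rw [zpow_add_one, mul_smul, ih, hn]
  | pred i ih =>
    rw [zpow_sub_one, mul_smul, ih]
    have := hn (g⁻¹ • x)
    rw [smul_inv_smul] at this
    exact this.symm

/-- The kernel of `dOp g` is the group of functions on the orbit space of `⟨g⟩`. -/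
def kerDOpEquiv (g : G) : (dOp (A := A) (X := X) g).ker ≃
    (MulAction.orbitRel.Quotient (Subgroup.zpowers g) X → A) where
  toFun n := fun ω => Quotient.liftOn' ω (n : X → A) (by
    intro x y hxy
    have hxy' : x ∈ MulAction.orbit (Subgroup.zpowers g) y := hxy
    obtain ⟨⟨_, i, rfl⟩, rfl⟩ := hxy'
    exact apply_zpow_smul g ((mem_ker_dOp_iff g _).mp n.2) i y)
  invFun f := ⟨fun x => f (Quotient.mk'' x), by
    rw [mem_ker_dOp_iff]
    intro x
    congr 1
    apply Quotient.sound'
    show g • x ∈ MulAction.orbit (Subgroup.zpowers g) x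
    exact ⟨⟨g, Subgroup.mem_zpowers g⟩, rfl⟩⟩
  left_inv n := by
    apply Subtype.ext
    funext x
    rfl
  right_inv f := by
    funext ω
    induction ω using Quotient.inductionOn' with
    | h x => rfl

theorem card_ker_dOp [Finite X] (g : G) :
    Nat.card (dOp (A := A) (X := X) g).ker =
      Nat.card A ^ Nat.card (MulAction.orbitRel.Quotient (Subgroup.zpowers g) X) := by
  rw [Nat.card_congr (kerDOpEquiv g), Nat.card_fun]

end Kernel

section Transitive

variable [MulAction.IsPretransitive G X]

/-- Functions killed by `dOp s` and `dOp u`, with `s, u` generating `G`, are constant. -/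
theorem eq_const_of_dOp_eq_zero {s u : G} (hgen : Subgroup.closure {s, u} = ⊤) {m : X → A}
    (hs : dOp s m = 0) (hu : dOp u m = 0) (x y : X) : m x = m y := by
  have key : ∀ g : G, ∀ z : X, m (g • z) = m z := by
    intro g
    have hg : g ∈ Subgroup.closure {s, u} := hgen ▸ Subgroup.mem_top g
    induction hg using Subgroup.closure_induction with
    | mem g hg =>
      rcases hg with rfl | rfl
      · exact (dOp_eq_zero_iff _ m).mp hs
      · exact (dOp_eq_zero_iff _ m).mp hu
    | one => intro z; rw [one_smul]
    | mul g h _ _ ihg ihh => intro z; rw [mul_smul, ihg, ihh]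
    | inv g _ ih =>
      intro z
      have := ih (g⁻¹ • z)
      rw [smul_inv_smul] at this
      exact this.symm
  obtain ⟨g, rfl⟩ := MulAction.exists_smul_eq G y x
  exact key g y

variable [Fintype X] [DecidableEq X]

/-- The subgroup `range (dOp u) ⊔ range (dOp t)`. -/
def dRange (u t : G) : AddSubgroup (X → A) :=
  (dOp (A := A) (X := X) u).range ⊔ (dOp (A := A) (X := X) t).range

theorem single_sub_single_mem_dRange {u t : G} (hgen : Subgroup.closure {u, t} = ⊤)
    (a : A) (x y : X) : (Pi.single x a - Pi.single y a : X → A) ∈ dRange (A := A) u t := by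
  -- the set of `g` with `single (g • z) a - single z a ∈ dRange` for all `z` is a subgroup
  have step : ∀ (v : G), (∀ z : X, (Pi.single (v • z) a - Pi.single z a : X → A) ∈
      (dOp (A := A) (X := X) v).range) := by
    intro v z
    refine ⟨-(Pi.single (v • z) a), ?_⟩
    funext w
    simp only [dOp_apply, Pi.neg_apply, Pi.sub_apply, Pi.single_apply, smul_left_cancel_iff]
    abel
  have key : ∀ g : G, ∀ z : X,
      (Pi.single (g • z) a - Pi.single z a : X → A) ∈ dRange (A := A) u t := by
    intro g
    have hg : g ∈ Subgroup.closure {u, t} := hgen ▸ Subgroup.mem_top g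
    induction hg using Subgroup.closure_induction with
    | mem g hg =>
      intro z
      rcases hg with rfl | rfl
      · exact AddSubgroup.mem_sup_left (step _ z)
      · exact AddSubgroup.mem_sup_right (step _ z)
    | one => intro z; rw [one_smul, sub_self]; exact zero_mem _
    | mul g h _ _ ihg ihh =>
      intro z
      have := add_mem (ihg (h • z)) (ihh z)
      rw [sub_add_sub_cancel] at this
      rwa [mul_smul]
    | inv g _ ih =>
      intro z
      have := neg_mem (ih (g⁻¹ • z))
      rwa [smul_inv_smul, neg_sub] at this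
  obtain ⟨g, rfl⟩ := MulAction.exists_smul_eq G y x
  exact key g y

/-- If `u, t` generate `G` (acting transitively on `X`), every function of total sum zero is of the
form `dOp u p + dOp t k`. -/
theorem mem_dRange_of_sum_eq_zero {u t : G} (hgen : Subgroup.closure {u, t} = ⊤)
    [Nonempty X] (f : X → A) (hf : ∑ x, f x = 0) : f ∈ dRange (A := A) u t := by
  obtain ⟨x₀⟩ := ‹Nonempty X›
  have h1 : f = ∑ x, (Pi.single x (f x) - Pi.single x₀ (f x) : X → A) := by
    funext y
    simp only [Finset.sum_apply, Pi.sub_apply, Finset.sum_sub_distrib]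
    rw [Finset.sum_eq_single y (by intro b _ hb; rw [Pi.single_apply, if_neg hb.symm])
      (by intro h; exact absurd (Finset.mem_univ y) h), Pi.single_eq_same]
    have : ∑ x, (Pi.single x₀ (f x) : X → A) y = (Pi.single x₀ (∑ x, f x) : X → A) y := by
      simp only [Pi.single_apply]
      split_ifs with h
      · rfl
      · simp
    rw [this, hf, Pi.single_zero]
    simp
  rw [h1]
  exact sum_mem fun x _ => single_sub_single_mem_dRange hgen (f x) x x₀

theorem exists_dOp_add_dOp {u t : G} (hgen : Subgroup.closure {u, t} = ⊤)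
    [Nonempty X] (f : X → A) (hf : ∑ x, f x = 0) :
    ∃ p k : X → A, f = dOp u p + dOp t k := by
  have h := mem_dRange_of_sum_eq_zero hgen f hf
  rw [dRange, AddSubgroup.mem_sup] at h
  obtain ⟨_, ⟨p, rfl⟩, _, ⟨k, rfl⟩, h⟩ := h
  exact ⟨p, k, h.symm⟩

end Transitive

end Fermat.Agent.Gateway.Count
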